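import Fermat.Agent.A2.H729.LocalFact
import Mathlib.FieldTheory.Galois.Basic
import Mathlib.RingTheory.RootsOfUnity.PrimitiveRoots

/-!
# A2, piece ALG_ss (helper729), version C and the final Kummer statement

Setting: `R` noetherian domain with `R[X]` integrally closed, `w ∈ R` prime, `m` invertible in
`R`; `F₀ ⊆ F` fields over `R`, `x₀ ∈ F₀` a coordinate (transcendental over `R`), `R` integrally
closed in `F` (`hRF`), `F` finite over `Frac R (x₀)`; `O₀ = gaussO hw x₀` (resp. `O`) is the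
semi-local ring of the generic points of the special fibre of the normal model of `F₀`
(resp. `F`).

* `kummer_trivial_of_local_factorisation` (**version C**): `y ∈ F`, `y ^ m = u ∈ F₀`,
  `u ≡ 1 mod w O₀`, and at every closed point `𝔫₀ ∋ w` of the two charts of `F₀` a local
  factorisation `u = ε * h ^ m`, `h ≡ 1 mod w O₀`, `ε` regular at `𝔫₀`.
  Then `kummerIdem y ∈ w O` or `y ≡ 1 mod w O`.
* `exists_pow_mul_inW` : with a primitive `m`-th root of unity `ζ ∈ R`, some `ζ ^ k * y` is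
  `≡ 1 mod w O`.
* `algEquiv_fixed_of_inW` : if `y ≡ 1 mod w O` and `y ^ m ∈ F₀`, every `F₀`-automorphism of `F`
  fixes `y`.
* `alg_ss` : for `F / F₀` finite Galois, `y ∈ F₀`.
-/

set_option autoImplicit false
set_option linter.unusedSectionVars false

namespace Fermat.Agent.A2.H729

open Polynomial Fermat.Agent.S18.H138

section Basic

variable {R : Type*} [CommRing R] [IsDomain R] [IsIntegrallyClosed (Polynomial R)]
  {F : Type*} [Field F] [Algebra R F]

/-- `w O ∩ R = w R`. -/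
theorem dvd_of_inW_algebraMap (hinjR : Function.Injective (algebraMap R F)) {w : R}
    (hw : Prime w) {x : F} (hx : Transcendental R x) {a : R}
    (h : InW (gaussO hw x) w (algebraMap R F a)) : w ∣ a := by
  obtain ⟨t, ht, htt⟩ := qep_fin hw hx _ (Subalgebra.algebraMap_mem _ a) h
  exact dvd_of_algebraMap_eq_mul hinjR hx w a ht htt

theorem not_inW_one (hinjR : Function.Injective (algebraMap R F)) {w : R}
    (hw : Prime w) {x : F} (hx : Transcendental R x) : ¬ InW (gaussO hw x) w 1 := by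
  intro h
  have h1 : w ∣ (1 : R) := dvd_of_inW_algebraMap hinjR hw hx (a := 1) (by rwa [map_one])
  exact hw.not_isUnit (isUnit_of_dvd_one h1)

/-- A root of unity of order prime to the residue characteristic which is `≡ 1 mod w` is `1`. -/
theorem eq_one_of_pow_eq_one_of_dvd_sub_one {w : R} (hw : Prime w) {mi : R} {m : ℕ}
    (hmi : (m : R) * mi = 1) {r : R} (hr : r ^ m = 1) (hwr : w ∣ r - 1) : r = 1 := by
  have h1 : (r - 1) * ∑ i ∈ Finset.range m, r ^ i = 0 := by
    rw [mul_geom_sum, hr, sub_self]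
  rcases mul_eq_zero.1 h1 with h | h
  · exact sub_eq_zero.1 h
  · exfalso
    have h2 : w ∣ (∑ i ∈ Finset.range m, r ^ i) - (m : R) := by
      have : (∑ i ∈ Finset.range m, r ^ i) - (m : R) = ∑ i ∈ Finset.range m, (r ^ i - 1) := by
        rw [Finset.sum_sub_distrib]; simp
      rw [this]
      exact Finset.dvd_sum fun i _ => hwr.trans (sub_one_dvd_pow_sub_one r i)
    rw [h, zero_sub] at h2
    have h3 : w ∣ (m : R) := (dvd_neg.1 h2)
    have h4 : w ∣ (1 : R) := by rw [← hmi]; exact h3.mul_right mi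
    exact hw.not_isUnit (isUnit_of_dvd_one h4)

theorem sum_pow_pow_primitive {ζ : R} {m : ℕ} (hζ : IsPrimitiveRoot ζ m) {i : ℕ} (hi : i < m) :
    ∑ k ∈ Finset.range m, (ζ ^ k) ^ i = if i = 0 then (m : R) else 0 := by
  split_ifs with h0
  · subst h0; simp
  · have h1 : (ζ ^ i - 1) * ∑ k ∈ Finset.range m, (ζ ^ i) ^ k = 0 := by
      rw [mul_geom_sum, ← pow_mul, mul_comm, pow_mul, hζ.pow_eq_one, one_pow, sub_self]
    have h2 : ζ ^ i - 1 ≠ 0 := sub_ne_zero.2 (hζ.pow_ne_one_of_pos_of_lt h0 hi)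
    have h3 := (mul_eq_zero.1 h1).resolve_left h2
    rw [← h3]
    refine Finset.sum_congr rfl fun k _ => ?_
    rw [← pow_mul, ← pow_mul, mul_comm]

/-- The Kummer idempotents of the `ζ ^ k * y` sum to `1`. -/
theorem sum_kummerIdem {ζ : R} {m : ℕ} (hζ : IsPrimitiveRoot ζ m) {mi : R}
    (hmi : (m : R) * mi = 1) (y : F) :
    ∑ k ∈ Finset.range m, kummerIdem mi m (algebraMap R F (ζ ^ k) * y) = 1 := by
  have hm : 0 < m := by
    rcases Nat.eq_zero_or_pos m with h | h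
    · exfalso
      subst h
      simp at hmi
    · exact h
  simp only [kummerIdem, mul_pow, ← map_pow]
  rw [← Finset.mul_sum, Finset.sum_comm]
  have : ∀ i ∈ Finset.range m, ∑ k ∈ Finset.range m, algebraMap R F ((ζ ^ k) ^ i) * y ^ i =
      algebraMap R F (if i = 0 then (m : R) else 0) * y ^ i := by
    intro i hi
    rw [← Finset.sum_mul, ← map_sum, sum_pow_pow_primitive hζ (Finset.mem_range.1 hi)]
  rw [Finset.sum_congr rfl this, Finset.sum_eq_single 0]
  · rw [if_pos rfl, pow_zero, mul_one, ← map_mul, mul_comm, hmi, map_one]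
  · intro i _ hi0
    rw [if_neg hi0, map_zero, zero_mul]
  · intro h
    exact absurd (Finset.mem_range.2 hm) h

end Basic

section Main

variable {R : Type*} [CommRing R] [IsDomain R] [IsNoetherianRing R]
  [IsIntegrallyClosed (Polynomial R)]
  {F₀ : Type*} [Field F₀] [Algebra R F₀]
  {F : Type*} [Field F] [Algebra R F] [Algebra F₀ F] [IsScalarTower R F₀ F] [CharZero F]

/-- **ALG_ss, version C**: local factorisations on the base charts. -/
theorem kummer_trivial_of_local_factorisation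
    (hinjR : Function.Injective (algebraMap R F))
    (hRF : ∀ y : F, IsIntegral R y → y ∈ Set.range (algebraMap R F))
    {x₀ : F₀} (hx : Transcendental R (algebraMap F₀ F x₀))
    [FiniteDimensional (baseField R (algebraMap F₀ F x₀)) F]
    {w : R} (hw : Prime w) {mi : R} {m : ℕ} (hm : 0 < m) (hmi : (m : R) * mi = 1)
    {u : F₀} {y : F} (hyu : y ^ m = algebraMap F₀ F u)
    (hgen : InW (gaussO hw x₀) w (u - 1))
    (hLF_fin : ∀ 𝔫₀ : Ideal (chart R ({x₀} : Set F₀)), 𝔫₀.IsMaximal →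
      algebraMap R (chart R ({x₀} : Set F₀)) w ∈ 𝔫₀ →
      ∃ s : chart R ({x₀} : Set F₀), s ∉ 𝔫₀ ∧ ∃ h ε : F₀,
        InW (gaussO hw x₀) w (h - 1) ∧ u = ε * h ^ m ∧ (s : F₀) * ε ∈ chart R ({x₀} : Set F₀))
    (hLF_inf : ∀ 𝔫₀ : Ideal (chart R ({x₀⁻¹} : Set F₀)), 𝔫₀.IsMaximal →
      algebraMap R (chart R ({x₀⁻¹} : Set F₀)) w ∈ 𝔫₀ →
      ∃ s : chart R ({x₀⁻¹} : Set F₀), s ∉ 𝔫₀ ∧ ∃ h ε : F₀,
        InW (gaussO hw x₀) w (h - 1) ∧ u = ε * h ^ m ∧
          (s : F₀) * ε ∈ chart R ({x₀⁻¹} : Set F₀)) :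
    InW (gaussO hw (algebraMap F₀ F x₀)) w (kummerIdem mi m y) ∨
      InW (gaussO hw (algebraMap F₀ F x₀)) w (y - 1) := by
  set x : F := algebraMap F₀ F x₀ with hxdef
  have hx0 : x ≠ 0 := ne_zero_of_transcendental hx
  have hx₀0 : x₀ ≠ 0 := fun h => hx0 (by rw [hxdef, h, map_zero])
  have huO : algebraMap F₀ F u ∈ gaussO hw x := by
    have h1 : InW (gaussO hw x) w (algebraMap F₀ F (u - 1)) := InW.map (F := F) hw hgen
    have : algebraMap F₀ F u = algebraMap F₀ F (u - 1) + 1 := by rw [map_sub, map_one]; ring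
    rw [this]
    exact Subalgebra.add_mem _ h1.mem (Subalgebra.one_mem _)
  have hyO : y ∈ gaussO hw x := mem_gaussO_of_pow_mem hw hm (by rw [hyu]; exact huO)
  have hym : InW (gaussO hw x) w (y ^ m - 1) := by
    have h1 : InW (gaussO hw x) w (algebraMap F₀ F (u - 1)) := InW.map (F := F) hw hgen
    rwa [map_sub, map_one, ← hyu] at h1
  have hxinv : algebraMap F₀ F x₀⁻¹ = x⁻¹ := by rw [map_inv₀]
  have hxi : Transcendental R (algebraMap F₀ F x₀⁻¹) := by
    rw [hxinv]; exact transcendental_inv hx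
  have hloc_fin := hloc_of_localFactorisation (F := F) hw hx hm hyu hyO hLF_fin
  have hyO' : y ∈ gaussO hw (algebraMap F₀ F x₀⁻¹) := by
    rw [hxinv, gaussO_inv hw hx0]; exact hyO
  have hLF_inf' : ∀ 𝔫₀ : Ideal (chart R ({x₀⁻¹} : Set F₀)), 𝔫₀.IsMaximal →
      algebraMap R (chart R ({x₀⁻¹} : Set F₀)) w ∈ 𝔫₀ →
      ∃ s : chart R ({x₀⁻¹} : Set F₀), s ∉ 𝔫₀ ∧ ∃ h ε : F₀,
        InW (gaussO hw x₀⁻¹) w (h - 1) ∧ u = ε * h ^ m ∧
          (s : F₀) * ε ∈ chart R ({x₀⁻¹} : Set F₀) := by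
    rw [gaussO_inv hw hx₀0]
    exact hLF_inf
  have hloc_inf := hloc_of_localFactorisation (F := F) hw hxi hm hyu hyO' hLF_inf'
  rw [hxinv, gaussO_inv hw hx0] at hloc_inf
  exact kummer_trivial_of_local hinjR hRF hx w hw (gaussO hw x) (chart_fin_le_gaussO hw x)
    (chart_inf_le_gaussO hw hx0) (qep_fin hw hx) (qep_inf hw hx) (qep_mid hw hx) hm hmi hyO hym
    hloc_fin hloc_inf

/-- Root-of-unity selection: some `ζ ^ k * y` is `≡ 1` generically on the special fibre. -/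
theorem exists_pow_mul_inW
    (hinjR : Function.Injective (algebraMap R F))
    (hRF : ∀ y : F, IsIntegral R y → y ∈ Set.range (algebraMap R F))
    {x₀ : F₀} (hx : Transcendental R (algebraMap F₀ F x₀))
    [FiniteDimensional (baseField R (algebraMap F₀ F x₀)) F]
    {w : R} (hw : Prime w) {mi : R} {m : ℕ} (hmi : (m : R) * mi = 1)
    {ζ : R} (hζ : IsPrimitiveRoot ζ m)
    {u : F₀} {y : F} (hyu : y ^ m = algebraMap F₀ F u)
    (hgen : InW (gaussO hw x₀) w (u - 1))
    (hLF_fin : ∀ 𝔫₀ : Ideal (chart R ({x₀} : Set F₀)), 𝔫₀.IsMaximal →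
      algebraMap R (chart R ({x₀} : Set F₀)) w ∈ 𝔫₀ →
      ∃ s : chart R ({x₀} : Set F₀), s ∉ 𝔫₀ ∧ ∃ h ε : F₀,
        InW (gaussO hw x₀) w (h - 1) ∧ u = ε * h ^ m ∧ (s : F₀) * ε ∈ chart R ({x₀} : Set F₀))
    (hLF_inf : ∀ 𝔫₀ : Ideal (chart R ({x₀⁻¹} : Set F₀)), 𝔫₀.IsMaximal →
      algebraMap R (chart R ({x₀⁻¹} : Set F₀)) w ∈ 𝔫₀ →
      ∃ s : chart R ({x₀⁻¹} : Set F₀), s ∉ 𝔫₀ ∧ ∃ h ε : F₀,
        InW (gaussO hw x₀) w (h - 1) ∧ u = ε * h ^ m ∧
          (s : F₀) * ε ∈ chart R ({x₀⁻¹} : Set F₀)) :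
    ∃ k < m, InW (gaussO hw (algebraMap F₀ F x₀)) w (algebraMap R F (ζ ^ k) * y - 1) := by
  have hm : 0 < m := by
    rcases Nat.eq_zero_or_pos m with h | h
    · exfalso
      subst h
      simp at hmi
    · exact h
  by_contra hcon0
  have hcon : ∀ k, k < m →
      ¬ InW (gaussO hw (algebraMap F₀ F x₀)) w (algebraMap R F (ζ ^ k) * y - 1) :=
    fun k hk h => hcon0 ⟨k, hk, h⟩
  have hall : ∀ k ∈ Finset.range m, InW (gaussO hw (algebraMap F₀ F x₀)) w
      (kummerIdem mi m (algebraMap R F (ζ ^ k) * y)) := by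
    intro k hk
    have hk' := Finset.mem_range.1 hk
    have hyu' : (algebraMap R F (ζ ^ k) * y) ^ m = algebraMap F₀ F u := by
      rw [mul_pow, ← map_pow, ← pow_mul, mul_comm k m, pow_mul, hζ.pow_eq_one, one_pow,
        map_one, one_mul, hyu]
    rcases kummer_trivial_of_local_factorisation hinjR hRF hx hw hm hmi hyu' hgen hLF_fin
      hLF_inf with h | h
    · exact h
    · exact absurd h (hcon k hk')
  have h1 := InW.sum _ _ hall
  rw [sum_kummerIdem hζ hmi y] at h1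
  exact not_inW_one hinjR hw hx h1

/-- If `y ≡ 1` generically on the special fibre and `y ^ m ∈ F₀`, then `y` is fixed by every
`F₀`-automorphism of `F`. -/
theorem algEquiv_fixed_of_inW
    (hinjR : Function.Injective (algebraMap R F))
    (hRF : ∀ y : F, IsIntegral R y → y ∈ Set.range (algebraMap R F))
    {x₀ : F₀} (hx : Transcendental R (algebraMap F₀ F x₀))
    {w : R} (hw : Prime w) {mi : R} {m : ℕ} (hm : 0 < m) (hmi : (m : R) * mi = 1)
    {u : F₀} {y : F} (hyu : y ^ m = algebraMap F₀ F u)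
    (hy1 : InW (gaussO hw (algebraMap F₀ F x₀)) w (y - 1)) (σ : F ≃ₐ[F₀] F) : σ y = y := by
  set O := gaussO hw (algebraMap F₀ F x₀) with hO
  have hyO : y ∈ O := by
    have : y = (y - 1) + 1 := by ring
    rw [this]
    exact Subalgebra.add_mem _ hy1.mem (Subalgebra.one_mem _)
  have hy0 : y ≠ 0 := by
    intro h0
    rw [h0, zero_sub] at hy1
    have := hy1.neg
    rw [neg_neg] at this
    exact not_inW_one hinjR hw hx this
  have hym : InW O w (y ^ m - 1) := by
    have := inW_pow_sub_pow hyO (Subalgebra.one_mem _) hy1 m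
    rwa [one_pow] at this
  -- the root of unity `ξ = σ y / y`
  set ξ : F := σ y * y⁻¹ with hξ
  have hσy : σ y = ξ * y := by rw [hξ, mul_assoc, inv_mul_cancel₀ hy0, mul_one]
  have hξm : ξ ^ m = 1 := by
    rw [hξ, mul_pow, ← map_pow, hyu, σ.commutes, ← hyu, inv_pow, mul_inv_cancel₀
      (pow_ne_zero _ hy0)]
  have hξint : IsIntegral R ξ := by
    refine ⟨X ^ m - 1, monic_X_pow_sub_C 1 hm.ne', ?_⟩
    simp [hξm]
  obtain ⟨r, hr⟩ := hRF ξ hξint
  have hrm : r ^ m = 1 := by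
    apply hinjR
    rw [map_pow, hr, hξm, map_one]
  -- `ξ ≡ 1`
  have h1 : InW O w (ξ * y - 1) := by
    rw [← hσy]
    have := InW.algEquiv hw σ hy1
    rwa [map_sub, map_one] at this
  have h2 : InW O w ((ξ - 1) * y) := by
    have : (ξ - 1) * y = (ξ * y - 1) - (y - 1) := by ring
    rw [this]
    exact h1.sub hy1
  have hξO : ξ ∈ O := by rw [← hr]; exact Subalgebra.algebraMap_mem _ r
  have h3 : InW O w (ξ - 1) := by
    have : ξ - 1 = ((ξ - 1) * y) * y ^ (m - 1) - (ξ - 1) * (y ^ m - 1) := by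
      have : y ^ m = y * y ^ (m - 1) := by
        rw [← pow_succ']; congr 1; omega
      rw [this]; ring
    rw [this]
    exact (h2.mul_right (Subalgebra.pow_mem _ hyO _)).sub
      (hym.mul_left (Subalgebra.sub_mem _ hξO (Subalgebra.one_mem _)))
  have h4 : w ∣ r - 1 := by
    apply dvd_of_inW_algebraMap hinjR hw hx
    rwa [map_sub, map_one, hr]
  have hr1 : r = 1 := eq_one_of_pow_eq_one_of_dvd_sub_one hw hmi hrm h4
  rw [hσy, ← hr, hr1, map_one, one_mul]

/-- **ALG_ss (route S), final form.**  A Kummer class `u ∈ F₀` which is `≡ 1` generically on the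
special fibre and has local factorisations `u = ε * h ^ m` (`h ≡ 1` generically, `ε` regular)
at every closed point of the special fibre is an `m`-th power in `F₀`, provided its Kummer
extension `F` is regular over `R` (`hRF`). -/
theorem alg_ss [IsGalois F₀ F] [FiniteDimensional F₀ F]
    (hinjR : Function.Injective (algebraMap R F))
    (hRF : ∀ y : F, IsIntegral R y → y ∈ Set.range (algebraMap R F))
    {x₀ : F₀} (hx : Transcendental R (algebraMap F₀ F x₀))
    [FiniteDimensional (baseField R (algebraMap F₀ F x₀)) F]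
    {w : R} (hw : Prime w) {mi : R} {m : ℕ} (hmi : (m : R) * mi = 1)
    {ζ : R} (hζ : IsPrimitiveRoot ζ m)
    {u : F₀} {y : F} (hyu : y ^ m = algebraMap F₀ F u)
    (hgen : InW (gaussO hw x₀) w (u - 1))
    (hLF_fin : ∀ 𝔫₀ : Ideal (chart R ({x₀} : Set F₀)), 𝔫₀.IsMaximal →
      algebraMap R (chart R ({x₀} : Set F₀)) w ∈ 𝔫₀ →
      ∃ s : chart R ({x₀} : Set F₀), s ∉ 𝔫₀ ∧ ∃ h ε : F₀,
        InW (gaussO hw x₀) w (h - 1) ∧ u = ε * h ^ m ∧ (s : F₀) * ε ∈ chart R ({x₀} : Set F₀))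
    (hLF_inf : ∀ 𝔫₀ : Ideal (chart R ({x₀⁻¹} : Set F₀)), 𝔫₀.IsMaximal →
      algebraMap R (chart R ({x₀⁻¹} : Set F₀)) w ∈ 𝔫₀ →
      ∃ s : chart R ({x₀⁻¹} : Set F₀), s ∉ 𝔫₀ ∧ ∃ h ε : F₀,
        InW (gaussO hw x₀) w (h - 1) ∧ u = ε * h ^ m ∧
          (s : F₀) * ε ∈ chart R ({x₀⁻¹} : Set F₀)) :
    ∃ y₀ : F₀, y₀ ^ m = u := by
  have hm : 0 < m := by
    rcases Nat.eq_zero_or_pos m with h | h
    · exfalso
      subst h
      simp at hmi
    · exact h
  obtain ⟨k, -, hk⟩ := exists_pow_mul_inW hinjR hRF hx hw hmi hζ hyu hgen hLF_fin hLF_inf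
  have hyu' : (algebraMap R F (ζ ^ k) * y) ^ m = algebraMap F₀ F u := by
    rw [mul_pow, ← map_pow, ← pow_mul, mul_comm k m, pow_mul, hζ.pow_eq_one, one_pow,
      map_one, one_mul, hyu]
  have hfix : ∀ σ : F ≃ₐ[F₀] F, σ (algebraMap R F (ζ ^ k) * y) = algebraMap R F (ζ ^ k) * y :=
    fun σ => algEquiv_fixed_of_inW hinjR hRF hx hw hm hmi hyu' hk σ
  obtain ⟨y₀, hy₀⟩ := (IsGalois.mem_range_algebraMap_iff_fixed
    (F := F₀) (E := F) (algebraMap R F (ζ ^ k) * y)).2 hfix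
  refine ⟨y₀, ?_⟩
  apply (algebraMap F₀ F).injective
  rw [map_pow, hy₀, hyu']

end Main

end Fermat.Agent.A2.H729
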